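import Mathlib.NumberTheory.ArithmeticFunction.Moebius
import Mathlib.Data.Nat.Squarefree
import Mathlib.Data.Nat.Totient
import Mathlib.Data.Real.Basic
import Mathlib.Tactic

/-!
# The Möbius function over the divisors of the order

`∑_{d ∣ g} μ d / d = φ g / g`, and `g` has at most `2 φ g` squarefree divisors.
-/

set_option autoImplicit false

noncomputable section

open ArithmeticFunction Finset
open scoped Moebius ArithmeticFunction.zeta

namespace FA.DivisionLogSquare

theorem sum_moebius_dvd (g k : ℕ) (hg : g ≠ 0) :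
    ∑ d ∈ g.divisors with d ∣ k, μ d = if k.Coprime g then 1 else 0 := by
  have h : g.divisors.filter (· ∣ k) = (k.gcd g).divisors := by
    ext d
    simp only [Finset.mem_filter, Nat.mem_divisors, Nat.dvd_gcd_iff, ne_eq, Nat.gcd_eq_zero_iff]
    tauto
  rw [h, ← coe_mul_zeta_apply, moebius_mul_coe_zeta, one_apply]

theorem sum_moebius_div {g : ℕ} (hg : 0 < g) :
    ∑ d ∈ g.divisors, (μ d : ℝ) / d = g.totient / g := by
  have h := (sum_eq_iff_sum_mul_moebius_eq (R := ℝ) (f := fun n => (n.totient : ℝ))
    (g := fun n => (n : ℝ))).1 (fun n _ => by exact_mod_cast Nat.sum_totient n) g hg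
  rw [← h, ← Nat.map_div_right_divisors, sum_map, sum_div]
  refine sum_congr rfl fun d hd => ?_
  obtain ⟨hdg, -⟩ := Nat.mem_divisors.1 hd
  have hd0 : (d : ℝ) ≠ 0 := Nat.cast_ne_zero.2 (Nat.pos_of_mem_divisors hd).ne'
  show (μ d : ℝ) / d = (μ d : ℝ) * ((g / d : ℕ) : ℝ) / g
  rw [Nat.cast_div hdg hd0]
  field_simp

theorem card_squarefree_divisors_le {g : ℕ} (hg : 0 < g) :
    (g.divisors.filter Squarefree).card ≤ 2 * g.totient := by
  have h1 : (g.divisors.filter Squarefree).card = 2 ^ g.primeFactors.card := by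
    rw [card_eq_sum_ones, Nat.sum_divisors_filter_squarefree hg.ne', sum_const, card_powerset,
      smul_eq_mul, mul_one, Nat.factors_eq]
    rfl
  have h2 : ∏ p ∈ g.primeFactors, (p - 1) ≤ g.totient := by
    refine Nat.le_of_mul_le_mul_right (c := ∏ p ∈ g.primeFactors, p) ?_
      (Finset.prod_pos fun p hp => (Nat.prime_of_mem_primeFactors hp).pos)
    rw [Nat.totient_mul_prod_primeFactors, mul_comm g]
    exact Nat.mul_le_mul_left _ (Nat.le_of_dvd hg (Nat.prod_primeFactors_dvd g))
  have h3 : 2 ^ g.primeFactors.card ≤ 2 * ∏ p ∈ g.primeFactors, (p - 1) := by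
    rw [← prod_const]
    refine le_trans (prod_le_prod' (g := fun p => (if p = 2 then 2 else 1) * (p - 1))
      fun p hp => ?_) ?_
    · have := (Nat.prime_of_mem_primeFactors hp).two_le
      split_ifs <;> omega
    · rw [prod_mul_distrib, prod_ite_eq']
      exact Nat.mul_le_mul_right _ (by split_ifs <;> norm_num)
  omega

/-- The total weight of the signs is at most `2 φ g`. -/
theorem sum_abs_moebius_le {g : ℕ} (hg : 0 < g) :
    ∑ d ∈ g.divisors, |(μ d : ℝ)| ≤ 2 * g.totient := by
  rw [← sum_filter_of_ne (p := Squarefree) fun d _ hd => by_contra fun hs => hd (by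
    rw [moebius_eq_zero_of_not_squarefree hs]; simp)]
  refine (sum_le_sum (g := fun _ => (1 : ℝ)) fun d _ => ?_).trans ?_
  · exact_mod_cast abs_moebius_le_one
  · rw [sum_const, nsmul_eq_mul, mul_one]
    exact_mod_cast card_squarefree_divisors_le hg

end FA.DivisionLogSquare

end
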