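import Fermat.Agent.BachLogSquare.Split

/-!
# The moment of the primes that split completely, from both sides

For a Galois `E/F` of degree `m` the primes of `E` of prime norm `p`, `p ∤ D` with `|d_E| ∣ D`, are
exactly those over such primes of `F` that split completely, so `m` times the moment of these is
`x² / 2` up to `O (log (2 |d_E|) x^(3/2) + x [E : ℚ] log D)`.
-/

set_option autoImplicit false
set_option linter.style.haveILetI false

noncomputable section

universe u

open NumberField IsDedekindDomain Module Finset Ideal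
open FA.DedekindExplicit FA.BachLogSquare
open FA.DedekindPIT (mangoldtK mangoldtK_le momentSum)
open FA.ArtinHooley (FieldRH)
open FA.Hecke (primesLE mem_primesLE)
open scoped Real Classical ArithmeticFunction.vonMangoldt

namespace FA.DivisionLogSquare

variable {F E : Type u} [Field F] [NumberField F] [Field E] [NumberField E] [Algebra F E]
  [IsGalois F E]

variable (F) in
/-- The primes of degree one of norm at most `x` prime to `D`. -/
def goodPrimes (D : ℕ) (x : ℝ) : Finset (HeightOneSpectrum (𝓞 F)) :=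
  (degOne F x).filter fun v => ¬ absNorm v.asIdeal ∣ D

variable (F E) in
/-- Those of them that split completely in `E`. -/
def splitGood (D : ℕ) (x : ℝ) : Finset (HeightOneSpectrum (𝓞 F)) :=
  (goodPrimes F D x).filter fun v => (v.asIdeal.primesOver (𝓞 E)).ncard = finrank F E

omit [IsGalois F E] in
/-- A prime over `p ∤ d_E` is unramified. -/
theorem ramificationIdx_eq_one_of_not_dvd {v : HeightOneSpectrum (𝓞 F)}
    (hd : ¬ absNorm v.asIdeal ∣ (discr E).natAbs)
    {Q : Ideal (𝓞 E)} (hQ : Q ∈ v.asIdeal.primesOver (𝓞 E)) :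
    Q.ramificationIdx (𝓞 F) = 1 := by
  haveI := hQ.1
  haveI := hQ.2
  haveI := v.isMaximal
  by_contra he
  refine hd (dvd_trans ?_ (Dvd.intro _
    (natAbs_discr_eq_absNorm_differentIdeal_mul_natAbs_discr_pow F (𝓞 F) E (𝓞 E)).symm))
  refine dvd_trans ?_ (map_dvd Ideal.absNorm
    (dvd_differentIdeal_iff.2 fun h => he (Ideal.ramificationIdx_eq_one_iff.2 h) :
      Q ∣ differentIdeal (𝓞 F) (𝓞 E)))
  rw [← Ideal.absNorm_pow_inertiaDeg v.asIdeal Q]
  exact dvd_pow_self _ (Ideal.inertiaDeg_pos (R := 𝓞 F) Q).ne'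

/-- Prime norm and no ramification above split the prime below. -/
theorem split_of_prime_norm {v : HeightOneSpectrum (𝓞 F)} {Q : Ideal (𝓞 E)}
    (hQ : Q ∈ v.asIdeal.primesOver (𝓞 E)) (hp : (absNorm Q).Prime)
    (hd : ¬ absNorm Q ∣ (discr E).natAbs) :
    (v.asIdeal.primesOver (𝓞 E)).ncard = finrank F E ∧ absNorm v.asIdeal = absNorm Q := by
  haveI := hQ.1
  haveI := hQ.2
  haveI := v.isMaximal
  obtain ⟨hN, hf⟩ := hp.pow_eq_iff.1 (Ideal.absNorm_pow_inertiaDeg v.asIdeal Q)
  have he := ramificationIdx_eq_one_of_not_dvd (hN.symm ▸ hd) hQ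
  have h := Ideal.ncard_primesOver_mul_ramificationIdxIn_mul_inertiaDegIn v.asIdeal (𝓞 E)
    (E ≃ₐ[F] E)
  rw [Ideal.inertiaDegIn_eq_inertiaDeg v.asIdeal Q (E ≃ₐ[F] E),
    Ideal.ramificationIdxIn_eq_ramificationIdx v.asIdeal Q (E ≃ₐ[F] E), he, hf, mul_one, mul_one,
    IsGalois.card_aut_eq_finrank] at h
  exact ⟨h, hN⟩

/-- The good primes of `E` are those over the good primes that split completely. -/
theorem goodPrimes_eq_biUnion {D : ℕ} (hD : (discr E).natAbs ∣ D) {x : ℝ} (hx : 0 ≤ x) :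
    goodPrimes E D x = (splitGood F E D x).biUnion (aboveLE E x) := by
  ext Q
  constructor
  · intro hQ
    obtain ⟨h1, hQD⟩ := Finset.mem_filter.1 hQ
    obtain ⟨hQx, hp⟩ := Finset.mem_filter.1 h1
    obtain ⟨v, hv⟩ : ∃ v : HeightOneSpectrum (𝓞 F), v.asIdeal = Q.asIdeal.under (𝓞 F) :=
      ⟨⟨_, inferInstance, fun h => Q.ne_bot (Ideal.eq_bot_of_comap_eq_bot h)⟩, rfl⟩
    obtain ⟨hs, hN⟩ := split_of_prime_norm (v := v) ⟨Q.isPrime, ⟨hv⟩⟩ hp
      fun h => hQD (h.trans hD)
    refine mem_biUnion.2 ⟨v, ?_, Finset.mem_filter.2 ⟨hQx, hv.symm⟩⟩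
    refine Finset.mem_filter.2 ⟨Finset.mem_filter.2 ⟨Finset.mem_filter.2 ⟨mem_primesLE.2
      (Nat.le_floor ?_), hN.symm ▸ hp⟩, hN.symm ▸ hQD⟩, hs⟩
    rw [hN]
    exact norm_le_of_mem E hx hQx
  · intro hQ
    obtain ⟨v, hv, hQv⟩ := mem_biUnion.1 hQ
    obtain ⟨hv1, hs⟩ := Finset.mem_filter.1 hv
    obtain ⟨hv2, hvD⟩ := Finset.mem_filter.1 hv1
    obtain ⟨hQx, hQu⟩ := Finset.mem_filter.1 hQv
    have hN := absNorm_of_split hs ⟨Q.isPrime, ⟨hQu.symm⟩⟩
    exact Finset.mem_filter.2 ⟨Finset.mem_filter.2 ⟨hQx, hN ▸ (Finset.mem_filter.1 hv2).2⟩,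
      hN ▸ hvD⟩

theorem primeMoment_good_eq {D : ℕ} (hD : (discr E).natAbs ∣ D) {x : ℝ} (hx : 0 ≤ x) :
    primeMoment E (goodPrimes E D x) x = finrank F E * primeMoment F (splitGood F E D x) x := by
  rw [goodPrimes_eq_biUnion (F := F) hD hx, primeMoment, primeMoment,
    sum_biUnion fun v _ w _ hvw => Finset.disjoint_left.2 fun Q hv hw => hvw
      (HeightOneSpectrum.ext ((Finset.mem_filter.1 hv).2.symm.trans (Finset.mem_filter.1 hw).2)),
    mul_sum]
  refine sum_congr rfl fun v hv => ?_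
  obtain ⟨hv1, hs⟩ := Finset.mem_filter.1 hv
  rw [sum_congr rfl (g := fun _ => Real.log (absNorm v.asIdeal) * (x - absNorm v.asIdeal))
    fun Q hQ => ?_, sum_const, card_aboveLE (norm_le_of_mem F hx
      (Finset.mem_filter.1 (Finset.mem_filter.1 hv1).1).1) hs, nsmul_eq_mul]
  rw [absNorm_of_split hs ⟨Q.isPrime, ⟨(Finset.mem_filter.1 hQ).2.symm⟩⟩]

variable (E) in
/-- The primes of degree one that divide `D` are light. -/
theorem sum_log_bad_le {D : ℕ} (hD : D ≠ 0) {x : ℝ} :
    ∑ v ∈ degOne E x with absNorm v.asIdeal ∣ D, Real.log (absNorm v.asIdeal) ≤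
      finrank ℚ E * Real.log D := by
  rw [← sum_fiberwise_of_maps_to (t := D.primeFactors)
    (g := fun v : HeightOneSpectrum (𝓞 E) => absNorm v.asIdeal) fun v hv => by
      obtain ⟨h1, h2⟩ := Finset.mem_filter.1 hv
      exact Nat.mem_primeFactors.2 ⟨(Finset.mem_filter.1 h1).2, h2, hD⟩]
  refine (sum_le_sum (g := fun p : ℕ => (finrank ℚ E : ℝ) * Real.log p) fun p hp => ?_).trans ?_
  · refine le_trans (le_trans (le_of_eq (sum_congr rfl fun v _ => (one_mul _).symm))
      (FA.Hecke.sum_le_fiberSum (w := fun _ => (1 : ℝ)) (fun _ => zero_le_one) (fun _ => le_rfl) _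
        fun v hv => (Finset.mem_filter.1 hv).2)) ((mangoldtK_le E p).trans_eq ?_)
    rw [ArithmeticFunction.vonMangoldt_apply_prime (Nat.prime_of_mem_primeFactors hp)]
  · rw [← mul_sum, ← Real.log_prod fun p hp => Nat.cast_ne_zero.2
      (Nat.prime_of_mem_primeFactors hp).ne_zero, ← Nat.cast_prod]
    refine mul_le_mul_of_nonneg_left (Real.log_le_log ?_ ?_) (Nat.cast_nonneg _)
    · exact Nat.cast_pos.2 (Finset.prod_pos fun p hp => (Nat.prime_of_mem_primeFactors hp).pos)
    · exact Nat.cast_le.2 (Nat.le_of_dvd (Nat.pos_of_ne_zero hD) (Nat.prod_primeFactors_dvd D))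

/-- **The moment of the primes that split completely.** -/
theorem exists_splitGood_moment : ∃ A, 0 ≤ A ∧ ∀ {F E : Type u} [Field F] [NumberField F] [Field E]
    [NumberField E] [Algebra F E] [IsGalois F E], FieldRH E → ∀ D : ℕ, (discr E).natAbs ∣ D →
      D ≠ 0 → ∀ x : ℝ, 1 ≤ x →
      |(finrank F E : ℝ) * primeMoment F (splitGood F E D x) x - x ^ 2 / 2| ≤
        A * discScale E * (x * √x) + x * (finrank ℚ E * Real.log D) := by
  obtain ⟨A₀, hA₀, hlow⟩ := exists_degOne_moment.{u}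
  obtain ⟨A₁, hA₁, hup⟩ := exists_moment_bound.{u}
  refine ⟨A₀ + A₁, by positivity, fun {F E} _ _ _ _ _ _ hRH D hdvd hD x hx => ?_⟩
  have hx0 : 0 ≤ x := by linarith
  rw [← primeMoment_good_eq (F := F) hdvd hx0]
  have hS : 0 ≤ discScale E * (x * √x) :=
    mul_nonneg ((scale_bounds E).1.le.trans' (by norm_num)) (by positivity)
  have hlo := hlow E hRH x hx
  have hhi := (abs_le.1 (hup E hRH x hx)).2
  have hle := primeMoment_le E hx0 (s := goodPrimes E D x) fun v hv =>
    norm_le_of_mem E hx0 (Finset.mem_filter.1 (Finset.mem_filter.1 hv).1).1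
  have hbad : primeMoment E (degOne E x) x - primeMoment E (goodPrimes E D x) x ≤
      x * (finrank ℚ E * Real.log D) := by
    rw [primeMoment, primeMoment, goodPrimes, ← sum_filter_add_sum_filter_not (degOne E x)
      (fun v => absNorm v.asIdeal ∣ D), add_sub_cancel_right]
    refine le_trans ?_ (mul_le_mul_of_nonneg_left (sum_log_bad_le E hD (x := x)) hx0)
    rw [mul_sum]
    refine sum_le_sum fun v _ => ?_
    rw [mul_comm x]
    exact mul_le_mul_of_nonneg_left (sub_le_self _ (Nat.cast_nonneg _))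
      (Real.log_natCast_nonneg _)
  have hD1 : 0 ≤ x * (finrank ℚ E * Real.log D) :=
    mul_nonneg hx0 (mul_nonneg (Nat.cast_nonneg _) (Real.log_natCast_nonneg _))
  have := mul_nonneg hA₀ hS
  have := mul_nonneg hA₁ hS
  rw [abs_le]
  constructor <;> linarith

end FA.DivisionLogSquare

end
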