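import Fermat.Agent.DivisionLogSquare.Arith
import Fermat.Agent.DivisionLogSquare.Moment
import Fermat.Agent.Root.SummaryChebotarevSplit

/-!
# A prime whose Frobenius generates a cyclic group

In a cyclic `L/F` with group generated by `σ` the exponent of the Frobenius at a good prime is a
multiple of `d ∣ g` iff the prime splits completely in the field of degree `d`, so the moment of the
primes with Frobenius a generator is an alternating sum of those of the primes split completely.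
-/

set_option autoImplicit false
set_option linter.style.haveILetI false

noncomputable section

universe u

open NumberField IsDedekindDomain Module Finset Ideal
open FA.DedekindExplicit FA.BachLogSquare
open FA.ArtinHooley (FieldRH)
open scoped Real Classical ArithmeticFunction.Moebius

namespace FA.DivisionLogSquare

variable {F L : Type u} [Field F] [NumberField F] [Field L] [NumberField L] [Algebra F L]
  [IsGalois F L]

/-- An unramified prime has trivial inertia. -/
theorem inertia_eq_bot {v : HeightOneSpectrum (𝓞 F)} {Q : Ideal (𝓞 L)}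
    (hQ : Q ∈ v.asIdeal.primesOver (𝓞 L)) (he : Q.ramificationIdx (𝓞 F) = 1) :
    Q.inertia (L ≃ₐ[F] L) = ⊥ := by
  haveI := hQ.1
  haveI := hQ.2
  haveI := v.isMaximal
  haveI : Finite (𝓞 F ⧸ v.asIdeal) := Ideal.finiteQuotientOfFreeOfNeBot _ v.ne_bot
  have h := Ideal.card_inertia_eq_ramificationIdxIn (G := L ≃ₐ[F] L) v.asIdeal Q
  rw [Ideal.ramificationIdxIn_eq_ramificationIdx v.asIdeal Q (L ≃ₐ[F] L), he] at h
  exact Subgroup.card_eq_one.1 h

/-- An exponent of a Frobenius element at `v`. -/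
def frobExp (σ : L ≃ₐ[F] L) (v : HeightOneSpectrum (𝓞 F)) : ℕ :=
  if h : ∃ k : ℕ, ∃ Q ∈ v.asIdeal.primesOver (𝓞 L), IsArithFrobAt (𝓞 F) (σ ^ k) Q then h.choose
  else 0

theorem frobExp_spec {σ : L ≃ₐ[F] L} (hσ : ∀ τ, τ ∈ Subgroup.zpowers σ)
    (v : HeightOneSpectrum (𝓞 F)) :
    ∃ Q ∈ v.asIdeal.primesOver (𝓞 L), IsArithFrobAt (𝓞 F) (σ ^ frobExp σ v) Q := by
  have h : ∃ k : ℕ, ∃ Q ∈ v.asIdeal.primesOver (𝓞 L), IsArithFrobAt (𝓞 F) (σ ^ k) Q := by
    obtain ⟨Q, hQ, hQv, τ, hτ⟩ := FA.Chebotarev.exists_isArithFrobAt (L := L) v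
    obtain ⟨k, hk⟩ := Submonoid.mem_powers_iff _ _ |>.1 (mem_powers_iff_mem_zpowers.2 (hσ τ))
    exact ⟨k, Q, ⟨hQ.isPrime, ⟨hQv.symm⟩⟩, hk ▸ hτ⟩
  rw [frobExp, dif_pos h]
  exact h.choose_spec

omit [NumberField F] [NumberField L] [IsGalois F L] in
theorem zpowers_normal {σ : L ≃ₐ[F] L} (hσ : ∀ τ, τ ∈ Subgroup.zpowers σ) (d : ℕ) :
    (Subgroup.zpowers (σ ^ d)).Normal := ⟨fun n hn a => by
  obtain ⟨j, rfl⟩ := Subgroup.mem_zpowers_iff.1 hn
  obtain ⟨i, rfl⟩ := Subgroup.mem_zpowers_iff.1 (hσ a)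
  rw [← zpow_natCast σ d, ← zpow_mul, ← zpow_neg, ← zpow_add, ← zpow_add,
    add_neg_cancel_comm, zpow_mul]
  exact Subgroup.zpow_mem _ (by rw [zpow_natCast]; exact Subgroup.mem_zpowers _) j⟩

/-- The field of degree `d`. -/
abbrev degField (σ : L ≃ₐ[F] L) (d : ℕ) : IntermediateField F L :=
  IntermediateField.fixedField (Subgroup.zpowers (σ ^ d))

omit [NumberField F] [NumberField L] [IsGalois F L] in
theorem pow_mem_zpowers_iff {σ : L ≃ₐ[F] L} {d k : ℕ} (hd : d ∣ orderOf σ) :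
    σ ^ k ∈ Subgroup.zpowers (σ ^ d) ↔ d ∣ k := by
  refine ⟨fun h => ?_, fun ⟨j, hj⟩ => ?_⟩
  · obtain ⟨j, hj⟩ := Subgroup.mem_zpowers_iff.1 h
    rw [← zpow_natCast σ k, ← zpow_natCast σ d, ← zpow_mul, zpow_eq_zpow_iff_modEq] at hj
    have := (Int.modEq_iff_dvd.1 (hj.of_dvd (Int.natCast_dvd_natCast.2 hd)))
    have h2 := dvd_add this (dvd_mul_right (d : ℤ) j)
    rw [sub_add_cancel] at h2
    exact Int.natCast_dvd_natCast.1 h2
  · rw [hj, pow_mul]
    exact Subgroup.npow_mem_zpowers _ _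

theorem finrank_degField {σ : L ≃ₐ[F] L} (hσ : ∀ τ, τ ∈ Subgroup.zpowers σ) {d : ℕ}
    (hd : d ∣ orderOf σ) :
    finrank F (degField σ d) = d ∧ d * finrank (degField σ d) L = orderOf σ := by
  have hg : orderOf σ = finrank F L := by
    rw [← Nat.card_zpowers, ← IsGalois.card_aut_eq_finrank, Subgroup.eq_top_iff' _ |>.2 hσ,
      Subgroup.card_top]
  have hpos : 0 < orderOf σ := orderOf_pos σ
  have hd0 : d ≠ 0 := fun h => hpos.ne' (by simpa [h] using hd)
  have h1 : finrank (degField σ d) L = orderOf σ / d := by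
    rw [degField, IntermediateField.finrank_fixedField_eq_card, Nat.card_zpowers,
      orderOf_pow' σ hd0, Nat.gcd_eq_right hd]
  have h2 := Module.finrank_mul_finrank F (degField σ d) L
  rw [h1, ← hg] at h2
  have h3 : d * (orderOf σ / d) = orderOf σ := Nat.mul_div_cancel' hd
  refine ⟨Nat.eq_of_mul_eq_mul_right ?_ (h2.trans h3.symm), h1 ▸ h3⟩
  exact Nat.pos_of_ne_zero fun h => hpos.ne' (by rw [← h3, h, mul_zero])

/-- Splitting in the field of degree `d` is read off the exponent. -/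
theorem split_degField_iff {σ : L ≃ₐ[F] L} (hσ : ∀ τ, τ ∈ Subgroup.zpowers σ) {d : ℕ}
    (hd : d ∣ orderOf σ) {v : HeightOneSpectrum (𝓞 F)}
    (hv : ¬ absNorm v.asIdeal ∣ (discr L).natAbs) :
    (v.asIdeal.primesOver (𝓞 (degField σ d))).ncard = finrank F (degField σ d) ↔
      d ∣ frobExp σ v := by
  haveI := zpowers_normal hσ d
  haveI : IsGalois F (degField σ d) := IsGalois.of_fixedField_normal_subgroup _
  obtain ⟨Q, hQ, hτ⟩ := frobExp_spec hσ v
  haveI := hQ.1
  haveI := hQ.2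
  haveI : Q.IsMaximal := hQ.1.isMaximal (Ideal.ne_bot_of_mem_primesOver v.ne_bot hQ)
  have hQd : Q.under (𝓞 (degField σ d)) ∈ v.asIdeal.primesOver (𝓞 (degField σ d)) :=
    ⟨inferInstance, ⟨by rw [Ideal.under_under]; exact hQ.2.over⟩⟩
  haveI := hQd.1
  have he := ramificationIdx_eq_one_of_not_dvd (fun h => hv (h.trans (dvd_trans
    (dvd_pow_self _ (finrank_pos (R := degField σ d) (M := L)).ne') (Dvd.intro_left _
      (natAbs_discr_eq_absNorm_differentIdeal_mul_natAbs_discr_pow (degField σ d)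
        (𝓞 (degField σ d)) L (𝓞 L)).symm)))) hQd
  rw [FA.Chebotarev.split_iff_frobenius_one
    (hQd.1.isMaximal (Ideal.ne_bot_of_mem_primesOver v.ne_bot hQd)) hQd.2.over.symm
    (inertia_eq_bot hQd he) (FA.Chebotarev.isArithFrobAt_restrict (degField σ d) hτ),
    ← MonoidHom.mem_ker, IntermediateField.restrictNormalHom_ker,
    IntermediateField.fixingSubgroup_fixedField, pow_mem_zpowers_iff hd]

/-- The discriminant and the scale of the field of degree `d`. -/
theorem degField_bounds {σ : L ≃ₐ[F] L} (hσ : ∀ τ, τ ∈ Subgroup.zpowers σ) {d : ℕ}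
    (hd : d ∣ orderOf σ) :
    (discr (degField σ d)).natAbs ∣ (discr L).natAbs ∧
      orderOf σ * discScale (degField σ d) ≤ d * (5 * discScale L) := by
  obtain ⟨-, hm⟩ := finrank_degField hσ hd
  have hdvd := Dvd.intro_left _
    (natAbs_discr_eq_absNorm_differentIdeal_mul_natAbs_discr_pow (degField σ d)
      (𝓞 (degField σ d)) L (𝓞 L)).symm
  refine ⟨(dvd_pow_self _ (finrank_pos (R := degField σ d) (M := L)).ne').trans hdvd, ?_⟩
  have h1 : (finrank (degField σ d) L : ℝ) * Real.log ((discr (degField σ d)).natAbs : ℕ) ≤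
      Real.log ((discr L).natAbs : ℕ) := by
    rw [← Real.log_pow, ← Nat.cast_pow]
    exact Real.log_le_log (Nat.cast_pos.2 (pow_pos (Int.natAbs_pos.2 (discr_ne_zero _)) _))
      (Nat.cast_le.2 (Nat.le_of_dvd (Int.natAbs_pos.2 (discr_ne_zero L)) hdvd))
  have hl2 : Real.log 2 ≤ 1 := by linarith [Real.log_two_lt_d9]
  have hg : (orderOf σ : ℝ) ≤ 4 * discScale L := by
    refine le_trans (Nat.cast_le.2 ?_) (scale_bounds L).2.2.1
    calc orderOf σ ≤ finrank F L := by
          rw [← IsGalois.card_aut_eq_finrank, ← Nat.card_zpowers]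
          exact Subgroup.card_le_card_group _
      _ ≤ finrank ℚ L := by
          rw [← Module.finrank_mul_finrank ℚ F L]
          exact Nat.le_mul_of_pos_left _ finrank_pos
  have hd1 : (1 : ℝ) ≤ d := Nat.one_le_cast.2 (Nat.pos_of_dvd_of_pos hd (orderOf_pos σ))
  have hL : Real.log ((discr L).natAbs : ℕ) ≤ discScale L := by
    rw [discScale, Real.log_mul two_ne_zero
      (Nat.cast_ne_zero.2 (Int.natAbs_ne_zero.2 (discr_ne_zero L)))]
    exact le_add_of_nonneg_left (Real.log_nonneg one_le_two)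
  have hS0 := (scale_bounds L).1
  rw [discScale, Real.log_mul two_ne_zero (Nat.cast_ne_zero.2 (Int.natAbs_ne_zero.2
    (discr_ne_zero (degField σ d)))), mul_add, show (d : ℝ) * (5 * discScale L) =
      4 * discScale L * d + d * discScale L by ring]
  refine add_le_add ((mul_le_of_le_one_right (Nat.cast_nonneg _) hl2).trans
    (hg.trans (le_mul_of_one_le_right (by linarith) hd1))) ?_
  rw [← congrArg (Nat.cast : ℕ → ℝ) hm, Nat.cast_mul, mul_assoc]
  exact mul_le_mul_of_nonneg_left (h1.trans hL) (Nat.cast_nonneg d)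

/-- **A small good prime whose Frobenius generates the cyclic group.** -/
theorem exists_generator_prime : ∃ A : ℝ, 0 < A ∧ ∀ {F L : Type u} [Field F] [NumberField F]
    [Field L] [NumberField L] [Algebra F L] [IsGalois F L] {σ : L ≃ₐ[F] L},
    (∀ τ, τ ∈ Subgroup.zpowers σ) → (∀ M : IntermediateField F L, FieldRH M) →
      ∃ v : HeightOneSpectrum (𝓞 F), (absNorm v.asIdeal).Prime ∧
        ¬ absNorm v.asIdeal ∣ (discr L).natAbs ∧
        (absNorm v.asIdeal : ℝ) ≤ A * discScale L ^ 2 ∧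
        (frobExp σ v).Coprime (orderOf σ) := by
  obtain ⟨A₀, hA₀, hmom⟩ := exists_splitGood_moment.{u}
  obtain ⟨c, hc⟩ : ∃ c, c = 20 * A₀ + 10 := ⟨_, rfl⟩
  refine ⟨c ^ 2, by rw [hc]; positivity, fun {F L} _ _ _ _ _ _ {σ} hσ hRH => ?_⟩
  obtain ⟨S, hS⟩ : ∃ S, S = discScale L := ⟨_, rfl⟩
  obtain ⟨hS0, -, hn4, -⟩ := scale_bounds L
  obtain ⟨g, hg⟩ : ∃ g, g = orderOf σ := ⟨_, rfl⟩
  obtain ⟨D, hD⟩ : ∃ D, D = (discr L).natAbs := ⟨_, rfl⟩
  rw [← hS] at hS0 hn4 ⊢
  rw [← hg, ← hD]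
  have hg0 : 0 < g := hg ▸ orderOf_pos σ
  have hgR : (0 : ℝ) < g := Nat.cast_pos.2 hg0
  obtain ⟨x, hx⟩ : ∃ x, x = c ^ 2 * S ^ 2 := ⟨_, rfl⟩
  rw [← hx]
  have hc10 : 10 ≤ c := by linarith
  have hsx : √x = c * S := by
    rw [hx, ← mul_pow, Real.sqrt_sq (mul_nonneg (by linarith) (by linarith))]
  have hx1 : 1 ≤ x := by
    rw [hx, ← mul_pow]
    exact one_le_pow₀ (by nlinarith)
  by_contra hno
  push Not at hno
  obtain ⟨P, hP⟩ : ∃ P, P = goodPrimes F D x := ⟨_, rfl⟩
  have hzero : ∑ d ∈ g.divisors, (μ d : ℝ) *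
      primeMoment F (P.filter fun v => d ∣ frobExp σ v) x = 0 := by
    simp only [primeMoment, sum_filter, mul_sum, mul_ite, mul_zero]
    rw [sum_comm]
    refine sum_eq_zero fun v hv => ?_
    rw [hP] at hv
    obtain ⟨h1, h2⟩ := Finset.mem_filter.1 hv
    obtain ⟨h3, h4⟩ := Finset.mem_filter.1 h1
    have hk : ¬ (frobExp σ v).Coprime g := hno v h4 h2 (norm_le_of_mem F (by linarith) h3)
    rw [← sum_filter, ← sum_mul, ← Int.cast_sum, sum_moebius_dvd g _ hg0.ne', if_neg hk,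
      Int.cast_zero, zero_mul]
  obtain ⟨B, hB⟩ : ∃ B, B = (5 * A₀ * S * (x * √x) + 4 * S ^ 2 * x) / g := ⟨_, rfl⟩
  have key : ∀ d ∈ g.divisors, |primeMoment F (P.filter fun v => d ∣ frobExp σ v) x -
      x ^ 2 / 2 / d| ≤ B := by
    intro d hd
    have hdg : d ∣ orderOf σ := hg ▸ (Nat.mem_divisors.1 hd).1
    haveI := zpowers_normal hσ d
    haveI : IsGalois F (degField σ d) := IsGalois.of_fixedField_normal_subgroup _
    obtain ⟨hdeg, -⟩ := finrank_degField hσ hdg
    obtain ⟨hdvd, hSd⟩ := degField_bounds hσ hdg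
    have hsg : splitGood F (degField σ d) D x = P.filter fun v => d ∣ frobExp σ v := by
      rw [hP, splitGood]
      refine Finset.filter_congr fun v hv => ?_
      obtain ⟨-, h2⟩ := Finset.mem_filter.1 hv
      exact split_degField_iff hσ hdg (hD ▸ h2)
    have h := hmom (F := F) (hRH (degField σ d)) D (hD ▸ hdvd)
      (hD ▸ Int.natAbs_ne_zero.2 (discr_ne_zero L)) x hx1
    rw [hsg, hdeg, show finrank ℚ (degField σ d) = finrank ℚ F * d by
      rw [← Module.finrank_mul_finrank ℚ F (degField σ d), hdeg]] at h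
    have hdR : (0 : ℝ) < d := Nat.cast_pos.2 (Nat.pos_of_mem_divisors hd)
    refine le_of_mul_le_mul_left ?_ hdR
    obtain ⟨a, ha⟩ : ∃ a, a = primeMoment F (P.filter fun v => d ∣ frobExp σ v) x := ⟨_, rfl⟩
    rw [← ha] at h ⊢
    rw [show (d : ℝ) * |a - x ^ 2 / 2 / d| = |(d : ℝ) * a - x ^ 2 / 2| by
      rw [show (d : ℝ) * a - x ^ 2 / 2 = d * (a - x ^ 2 / 2 / d) by field_simp, abs_mul,
        abs_of_pos hdR]]
    refine h.trans ?_
    rw [hB, mul_div_assoc', le_div_iff₀ hgR, add_mul, mul_add]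
    refine add_le_add ?_ ?_
    · rw [← hg, ← hS] at hSd
      linear_combination A₀ * (x * √x) * hSd
    · have hD' : Real.log D ≤ S := by
        rw [hS, hD, discScale, Real.log_mul two_ne_zero
          (Nat.cast_ne_zero.2 (Int.natAbs_ne_zero.2 (discr_ne_zero L)))]
        exact le_add_of_nonneg_left (Real.log_nonneg one_le_two)
      have hn : (g : ℝ) * finrank ℚ F ≤ 4 * S := by
        refine le_trans (le_of_eq ?_) hn4
        rw [← Module.finrank_mul_finrank ℚ F L, hg, ← IsGalois.card_aut_eq_finrank F L,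
          Nat.cast_mul, ← Nat.card_zpowers, Subgroup.eq_top_iff' _ |>.2 hσ, Subgroup.card_top,
          mul_comm]
      have := mul_le_mul hn hD' (Real.log_natCast_nonneg _) (by linarith)
      push_cast
      linear_combination (x * d) * this
  have hsum : (g.totient : ℝ) / g * (x ^ 2 / 2) ≤ 2 * g.totient * B := by
    have h1 : (g.totient : ℝ) / g * (x ^ 2 / 2) = ∑ d ∈ g.divisors, (μ d : ℝ) *
        (x ^ 2 / 2 / d - primeMoment F (P.filter fun v => d ∣ frobExp σ v) x) := by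
      rw [← sum_moebius_div hg0, sum_mul]
      simp only [mul_sub, sum_sub_distrib, hzero, sub_zero]
      exact sum_congr rfl fun d _ => by ring
    rw [h1]
    have hB0 : 0 ≤ B := hB ▸ div_nonneg (by positivity) hgR.le
    refine (sum_le_sum (g := fun d => |(μ d : ℝ)| * B) fun d hd => ?_).trans ?_
    · refine (le_abs_self _).trans ?_
      rw [abs_mul, abs_sub_comm]
      exact mul_le_mul_of_nonneg_left (key d hd) (abs_nonneg _)
    · rw [← sum_mul]
      exact mul_le_mul_of_nonneg_right (sum_abs_moebius_le hg0) hB0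
  have hfin : x ^ 2 / 2 ≤ 2 * (5 * A₀ * S * (x * √x) + 4 * S ^ 2 * x) := by
    have hφ : (0 : ℝ) < g.totient := Nat.cast_pos.2 (Nat.totient_pos.2 hg0)
    refine le_of_mul_le_mul_left ?_ (div_pos hφ hgR)
    refine hsum.trans (le_of_eq ?_)
    rw [hB]
    ring
  rw [hsx] at hfin
  have h2 : x * (c * S) ^ 2 ≤ x * (S ^ 2 * (20 * A₀ * c + 16)) := by
    rw [hx] at hfin ⊢
    linear_combination 2 * hfin
  have h3 := le_of_mul_le_mul_left h2 (by linarith)
  have h4 : 0 < S ^ 2 := by positivity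
  have h5 : (c * S) ^ 2 = S ^ 2 * (20 * A₀ * c) + S ^ 2 * (10 * c) := by rw [hc]; ring
  have h6 := mul_le_mul_of_nonneg_left (show (100 : ℝ) ≤ 10 * c by linarith) h4.le
  linarith

end FA.DivisionLogSquare

end
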