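import Fermat.Agent.DivisionLogSquare.Cyclic

/-!
# The conditional theorem of Lagarias, Montgomery and Odlyzko for divisions

On the hypothesis of Riemann for the fields between `L^σ` and `L` a prime of degree one of norm
`O (log² (2 |d_L|))`, prime to `d_L`, has a Frobenius element generating a conjugate of `⟨σ⟩`.
-/

set_option autoImplicit false
set_option linter.style.haveILetI false

noncomputable section

universe u

open NumberField IsDedekindDomain Module Ideal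
open FA.DedekindExplicit
open FA.ArtinHooley (FieldRH)
open scoped Real Classical Pointwise

namespace FA.DivisionLogSquare

variable {K L : Type u} [Field K] [NumberField K] [Field L] [NumberField L] [Algebra K L]
  [IsGalois K L]

/-- A Frobenius element over a field with the same residue field is one over the ground field. -/
theorem isArithFrobAt_ground {F : IntermediateField K L} {Q : Ideal (𝓞 L)}
    (hN : absNorm (Q.under (𝓞 F)) = absNorm (Q.under (𝓞 K))) {τ : L ≃ₐ[F] L}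
    (h : IsArithFrobAt (𝓞 F) τ Q) : IsArithFrobAt (𝓞 K) (τ.restrictScalars K) Q := fun y => by
  have hy := h y
  rw [Ideal.absNorm_apply, Ideal.absNorm_apply, Submodule.cardQuot_apply,
    Submodule.cardQuot_apply] at hN
  rw [← hN]
  exact hy

/-- **The conditional least prime of a division, with exactly `log²`.** -/
theorem exists_division_prime : ∃ A : ℝ, 0 < A ∧ ∀ {K L : Type u} [Field K] [NumberField K]
    [Field L] [NumberField L] [Algebra K L] [IsGalois K L] (σ : L ≃ₐ[K] L),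
    (∀ M : IntermediateField K L, IntermediateField.fixedField (Subgroup.zpowers σ) ≤ M →
      FieldRH M) →
    ∃ v : HeightOneSpectrum (𝓞 K), (absNorm v.asIdeal).Prime ∧
      ¬ absNorm v.asIdeal ∣ (discr L).natAbs ∧
      (absNorm v.asIdeal : ℝ) ≤ A * discScale L ^ 2 ∧
      ∃ Q ∈ v.asIdeal.primesOver (𝓞 L), ∃ k : ℕ, k.Coprime (orderOf σ) ∧
        IsArithFrobAt (𝓞 K) (σ ^ k) Q := by
  obtain ⟨A, hA, h⟩ := exists_generator_prime.{u}
  refine ⟨A, hA, fun {K L} _ _ _ _ _ _ σ hRH => ?_⟩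
  obtain ⟨F, hF⟩ : ∃ F, F = IntermediateField.fixedField (Subgroup.zpowers σ) := ⟨_, rfl⟩
  subst hF
  obtain ⟨e, he⟩ : ∃ e, e = IntermediateField.subgroupEquivAlgEquiv (Subgroup.zpowers σ) :=
    ⟨_, rfl⟩
  obtain ⟨τ, hτ⟩ : ∃ τ, τ = e ⟨σ, Subgroup.mem_zpowers σ⟩ := ⟨_, rfl⟩
  have hres : ∀ k : ℕ, (τ ^ k).restrictScalars K = σ ^ k := fun k => by
    rw [hτ, ← map_pow, he]
    rfl
  have hgen : ∀ t, t ∈ Subgroup.zpowers τ := fun t => by
    obtain ⟨⟨a, ha⟩, rfl⟩ := e.surjective t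
    obtain ⟨j, hj⟩ := Subgroup.mem_zpowers_iff.1 ha
    refine Subgroup.mem_zpowers_iff.2 ⟨j, ?_⟩
    rw [hτ, ← map_zpow]
    exact congrArg e (Subtype.ext hj)
  have hord : orderOf τ = orderOf σ := by
    rw [hτ, MulEquiv.orderOf_eq, Subgroup.orderOf_mk]
  obtain ⟨w, hp, hd, hle, hk⟩ := h hgen fun M => hRH (M.restrictScalars K)
    fun y hy => M.algebraMap_mem ⟨y, hy⟩
  obtain ⟨Q, hQ, hfrob⟩ := frobExp_spec hgen w
  haveI := hQ.1
  haveI := hQ.2
  haveI := w.isMaximal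
  obtain ⟨v, hv⟩ : ∃ v : HeightOneSpectrum (𝓞 K), v.asIdeal = w.asIdeal.under (𝓞 K) :=
    ⟨⟨_, inferInstance, fun h => w.ne_bot (Ideal.eq_bot_of_comap_eq_bot h)⟩, rfl⟩
  haveI : w.asIdeal.LiesOver v.asIdeal := ⟨hv⟩
  haveI := v.isMaximal
  obtain ⟨hN, -⟩ := hp.pow_eq_iff.1 (Ideal.absNorm_pow_inertiaDeg v.asIdeal w.asIdeal)
  have hQv : Q.under (𝓞 K) = v.asIdeal := by
    rw [hv, hQ.2.over, Ideal.under_under]
  refine ⟨v, hN ▸ hp, hN ▸ hd, hN ▸ hle, Q, ⟨hQ.1, ⟨hQv.symm⟩⟩, frobExp τ w, hord ▸ hk, ?_⟩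
  rw [← hres]
  refine isArithFrobAt_ground ?_ hfrob
  rw [← hQ.2.over, hQv, hN]

/-- A generator at a prime makes it inert in a cyclic extension. -/
theorem ncard_eq_one_of_generator {σ : L ≃ₐ[K] L} (hσ : ∀ τ, τ ∈ Subgroup.zpowers σ) {k : ℕ}
    (hk : k.Coprime (orderOf σ)) {v : HeightOneSpectrum (𝓞 K)} {Q : Ideal (𝓞 L)}
    (hQ : Q ∈ v.asIdeal.primesOver (𝓞 L)) (h : IsArithFrobAt (𝓞 K) (σ ^ k) Q) :
    (v.asIdeal.primesOver (𝓞 L)).ncard = 1 := by
  haveI := v.isMaximal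
  haveI := hQ.1
  haveI := hQ.1.isMaximal (Ideal.ne_bot_of_mem_primesOver v.ne_bot hQ)
  rw [Set.ncard_eq_one]
  refine ⟨Q, Set.eq_singleton_iff_unique_mem.2 ⟨hQ, fun R hR => ?_⟩⟩
  haveI := hR.1
  obtain ⟨x, rfl⟩ := Algebra.IsInvariant.exists_smul_of_under_eq (𝓞 K) (𝓞 L) (L ≃ₐ[K] L) Q R
    (hQ.2.over.symm.trans hR.2.over)
  have hgen : σ ∈ Subgroup.zpowers (σ ^ k) := mem_zpowers_pow_iff.2 hk
  exact MulAction.mem_stabilizer_iff.1
    (((Subgroup.zpowers_le.2 (IsArithFrobAt.mem_stabilizer h)).trans' (Subgroup.zpowers_le.2 hgen))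
      (hσ x))

/-- **The least inert prime of a cyclic extension.** -/
theorem exists_inert_prime : ∃ A : ℝ, 0 < A ∧ ∀ {K L : Type u} [Field K] [NumberField K]
    [Field L] [NumberField L] [Algebra K L] [IsGalois K L], IsCyclic (L ≃ₐ[K] L) →
    (∀ M : IntermediateField K L, FieldRH M) →
    ∃ v : HeightOneSpectrum (𝓞 K), (absNorm v.asIdeal).Prime ∧
      ¬ absNorm v.asIdeal ∣ (discr L).natAbs ∧
      (absNorm v.asIdeal : ℝ) ≤ A * discScale L ^ 2 ∧
      (v.asIdeal.primesOver (𝓞 L)).ncard = 1 := by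
  obtain ⟨A, hA, h⟩ := exists_division_prime.{u}
  refine ⟨A, hA, fun {K L} _ _ _ _ _ _ hcyc hRH => ?_⟩
  obtain ⟨σ, hσ⟩ := hcyc.exists_generator
  obtain ⟨v, hp, hd, hle, Q, hQ, k, hk, hfrob⟩ := h σ fun M _ => hRH M
  exact ⟨v, hp, hd, hle, ncard_eq_one_of_generator hσ hk hQ hfrob⟩

/-- **The least prime of a class closed under the generators of its cyclic group.** -/
theorem exists_rational_class_prime : ∃ A : ℝ, 0 < A ∧ ∀ {K L : Type u} [Field K] [NumberField K]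
    [Field L] [NumberField L] [Algebra K L] [IsGalois K L] (σ : L ≃ₐ[K] L),
    (∀ M : IntermediateField K L, IntermediateField.fixedField (Subgroup.zpowers σ) ≤ M →
      FieldRH M) →
    (∀ k : ℕ, k.Coprime (orderOf σ) → IsConj (σ ^ k) σ) →
    ∃ v : HeightOneSpectrum (𝓞 K), (absNorm v.asIdeal).Prime ∧
      ¬ absNorm v.asIdeal ∣ (discr L).natAbs ∧
      (absNorm v.asIdeal : ℝ) ≤ A * discScale L ^ 2 ∧
      ∃ Q ∈ v.asIdeal.primesOver (𝓞 L), IsArithFrobAt (𝓞 K) σ Q := by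
  obtain ⟨A, hA, h⟩ := exists_division_prime.{u}
  refine ⟨A, hA, fun {K L} _ _ _ _ _ _ σ hRH hconj => ?_⟩
  obtain ⟨v, hp, hd, hle, Q, hQ, k, hk, hfrob⟩ := h σ hRH
  obtain ⟨c, hc⟩ := isConj_iff.1 (hconj k hk)
  haveI := hQ.1
  haveI := hQ.2
  exact ⟨v, hp, hd, hle, c • Q, ⟨inferInstance, inferInstance⟩, hc ▸ hfrob.conj c⟩

end FA.DivisionLogSquare

end
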